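import Fermat.Agent.S14.Thaine.Defs

/-!
# Route T, shared by blocks `Rel` and `Units` (owner helper14): `thaineU` is an `ω²`-eigenvector
modulo `p`-th powers

FROZEN STATEMENT `thaineU_eigen` (now fully proved; the helper lemmas live in the sub-namespace
`EigenAux`, e.g. `EigenAux.thaineU_eq_prod`, `EigenAux.gz_dvd`, `EigenAux.thaineU_dvd_prime_pow`).

Math: `u = ∏_{0<j<p} (1 - ζ^j)^{e j}`, `e j = ((j : ZMod p)^(p-3)).val`.  If `σ ζ = ζ^a`
(`a = chi p K σ ≠ 0`), then `σ u = ∏_j (1 - ζ^{a j})^{e j} = ∏_b (1 - ζ^b)^{e (b/a)}` (reindex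
`b = a j` in `ZMod p`; `1 - ζ^b` only depends on `b mod p`), and
`e (b/a) ≡ a² · e b ≡ sqExp σ · e b (mod p)` because `a^(p-1) = 1`.  Writing
`e (b/a) + p · k b = sqExp σ · e b + p · k' b` with natural numbers `k b, k' b` gives
`σ u · S^p = u^(sqExp σ) · T^p`, `S = ∏_b (1 - ζ^b)^{k b}`, `T = ∏_b (1 - ζ^b)^{k' b}`; both divide a
power of `p` since each `1 - ζ^b` divides `p`.
-/

set_option autoImplicit false

namespace Fermat.Agent.S14.Thaine.CycloU

open NumberField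

/-! ## Auxiliary lemmas (sub-namespace `EigenAux`) -/

namespace EigenAux

section aux

variable (p : ℕ) [Fact p.Prime] (K : Type*) [Field K] [NumberField K]
  [IsCyclotomicExtension {p} ℚ K]

/-- The factor `1 - ζ ^ x` of Thaine's unit, indexed by `x : ZMod p`. -/
noncomputable def gz (x : ZMod p) : 𝓞 K := 1 - zetaInt p K ^ x.val

/-- The exponent `x ^ (p - 3) mod p` of Thaine's unit, indexed by `x : ZMod p`. -/
def ez (x : ZMod p) : ℕ := (x ^ (p - 3)).val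

lemma zetaInt_isPrimitiveRoot : IsPrimitiveRoot (zetaInt p K) p :=
  (IsCyclotomicExtension.zeta_spec p ℚ K).toInteger_isPrimitiveRoot

lemma zetaInt_pow_prime : zetaInt p K ^ p = 1 := (zetaInt_isPrimitiveRoot p K).pow_eq_one

/-- Thaine's unit as a product over the nonzero elements of `ZMod p`. -/
lemma thaineU_eq_prod :
    thaineU p K = ∏ x ∈ (Finset.univ : Finset (ZMod p)).filter (· ≠ 0), gz p K x ^ ez p x := by
  unfold thaineU
  refine Finset.prod_nbij' (fun j : ℕ => (j : ZMod p)) (fun x : ZMod p => x.val) ?_ ?_ ?_ ?_ ?_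
  · intro j hj
    rw [Finset.mem_Ioo] at hj
    rw [Finset.mem_filter]
    refine ⟨Finset.mem_univ _, ?_⟩
    intro h
    rw [ZMod.natCast_eq_zero_iff] at h
    exact absurd (Nat.le_of_dvd hj.1 h) (not_le.mpr hj.2)
  · intro x hx
    rw [Finset.mem_filter] at hx
    rw [Finset.mem_Ioo]
    exact ⟨ZMod.val_pos.mpr hx.2, ZMod.val_lt x⟩
  · intro j hj
    rw [Finset.mem_Ioo] at hj
    exact ZMod.val_natCast_of_lt hj.2
  · intro x hx
    exact ZMod.natCast_zmod_val x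
  · intro j hj
    rw [Finset.mem_Ioo] at hj
    simp only [gz, ez]
    rw [ZMod.val_natCast_of_lt hj.2]

lemma zetaK_pow_prime : (algebraMap (𝓞 K) K (zetaInt p K)) ^ p = 1 := by
  rw [← map_pow, zetaInt_pow_prime, map_one]

/-- `σ (1 - ζ ^ x) = 1 - ζ ^ (a x)` where `a = chi σ`. -/
lemma sigma_gz (σ : K ≃ₐ[ℚ] K) (x : ZMod p) :
    σ (algebraMap (𝓞 K) K (gz p K x)) = algebraMap (𝓞 K) K (gz p K (chi p K σ * x)) := by
  have hz := zetaK_pow_prime p K
  have h1 : σ (algebraMap (𝓞 K) K (zetaInt p K)) =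
      algebraMap (𝓞 K) K (zetaInt p K) ^ (chi p K σ).val :=
    IsCyclotomicExtension.Rat.galEquivZMod_apply_of_pow_eq p K σ hz
  unfold gz
  rw [map_sub, map_one, map_pow, map_sub, map_one, map_pow, map_sub, map_one, map_pow, h1,
    ← pow_mul, ZMod.val_mul, ← pow_eq_pow_mod _ hz]

lemma chi_ne_zero (σ : K ≃ₐ[ℚ] K) : chi p K σ ≠ 0 := Units.ne_zero _

omit [NumberField K] [IsCyclotomicExtension {p} ℚ K] in
/-- The exponent congruence `e (y / a) ≡ a² · e y (mod p)`. -/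
lemma ez_modEq (a : ZMod p) (ha : a ≠ 0) (y : ZMod p) :
    ez p (a⁻¹ * y) ≡ (a ^ 2).val * ez p y [MOD p] := by
  rw [← ZMod.natCast_eq_natCast_iff]
  unfold ez
  rw [Nat.cast_mul, ZMod.natCast_zmod_val, ZMod.natCast_zmod_val, ZMod.natCast_zmod_val, mul_pow]
  congr 1
  have h1 : a ^ (p - 1) = 1 := ZMod.pow_card_sub_one_eq_one ha
  have h2 : a ^ (2 + (p - 3)) = 1 := by
    rcases Nat.lt_or_ge p 3 with h | h
    · have hp2 : 2 + (p - 3) = (p - 1) * 2 := by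
        have := (Fact.out : p.Prime).two_le
        omega
      rw [hp2, pow_mul, h1, one_pow]
    · have hp3 : 2 + (p - 3) = p - 1 := by omega
      rw [hp3, h1]
  rw [inv_pow]
  apply inv_eq_of_mul_eq_one_left
  rw [← pow_add, h2]

lemma modEq_add_div {q m n : ℕ} (h : m ≡ n [MOD q]) : m + q * (n / q) = n + q * (m / q) := by
  have h1 := Nat.mod_add_div m q
  have h2 := Nat.mod_add_div n q
  unfold Nat.ModEq at h
  omega

/-- Each factor `1 - ζ ^ x` (`x ≠ 0`) divides `p`. -/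
lemma gz_dvd (x : ZMod p) (hx : x ≠ 0) : gz p K x ∣ ((p : ℕ) : 𝓞 K) := by
  have hζ := zetaInt_isPrimitiveRoot p K
  have h1 : (zetaInt p K ^ x.val) ^ p = 1 := by
    rw [← pow_mul, mul_comm, pow_mul, hζ.pow_eq_one, one_pow]
  have h2 : zetaInt p K ^ x.val ≠ 1 :=
    hζ.pow_ne_one_of_pos_of_lt (ZMod.val_pos.mpr hx).ne' (ZMod.val_lt x)
  have h3 := sub_one_dvd_natCast_of_pow_eq_one h1 h2
  unfold gz
  rw [← neg_sub, neg_dvd]
  exact h3

/-- Any product of powers of the factors `1 - ζ ^ x` (`x ≠ 0`) divides a power of `p`. -/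
lemma prod_gz_pow_dvd (k : ZMod p → ℕ) :
    ∃ n : ℕ, (∏ x ∈ (Finset.univ : Finset (ZMod p)).filter (· ≠ 0), gz p K x ^ k x) ∣
      ((p : ℕ) : 𝓞 K) ^ n := by
  refine ⟨∑ x ∈ (Finset.univ : Finset (ZMod p)).filter (· ≠ 0), k x, ?_⟩
  rw [← Finset.prod_pow_eq_pow_sum]
  apply Finset.prod_dvd_prod_of_dvd
  intro x hx
  exact pow_dvd_pow_of_dvd (gz_dvd p K x (Finset.mem_filter.mp hx).2) _

/-- Thaine's unit divides a power of `p` (it is a `p`-unit). -/
lemma thaineU_dvd_prime_pow : ∃ n : ℕ, thaineU p K ∣ ((p : ℕ) : 𝓞 K) ^ n := by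
  rw [thaineU_eq_prod]
  exact prod_gz_pow_dvd p K _

/-- `σ u = ∏_y (1 - ζ ^ y) ^ e (y / a)` where `a = chi σ`. -/
lemma sigma_thaineU (σ : K ≃ₐ[ℚ] K) :
    σ (algebraMap (𝓞 K) K (thaineU p K)) =
      ∏ y ∈ (Finset.univ : Finset (ZMod p)).filter (· ≠ 0),
        algebraMap (𝓞 K) K (gz p K y) ^ ez p ((chi p K σ)⁻¹ * y) := by
  rw [thaineU_eq_prod, map_prod, map_prod]
  have ha := chi_ne_zero p K σ
  refine Finset.prod_nbij' (fun x => chi p K σ * x) (fun y => (chi p K σ)⁻¹ * y) ?_ ?_ ?_ ?_ ?_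
  · intro x hx
    rw [Finset.mem_filter] at hx ⊢
    exact ⟨Finset.mem_univ _, mul_ne_zero ha hx.2⟩
  · intro y hy
    rw [Finset.mem_filter] at hy ⊢
    exact ⟨Finset.mem_univ _, mul_ne_zero (inv_ne_zero ha) hy.2⟩
  · intro x _
    rw [← mul_assoc, inv_mul_cancel₀ ha, one_mul]
  · intro y _
    rw [← mul_assoc, mul_inv_cancel₀ ha, one_mul]
  · intro x _
    rw [map_pow, map_pow, sigma_gz, ← mul_assoc, inv_mul_cancel₀ ha, one_mul]

end aux

end EigenAux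

open EigenAux in
theorem thaineU_eigen {p : ℕ} [Fact p.Prime]
    (K : Type*) [Field K] [NumberField K] [IsCyclotomicExtension {p} ℚ K] (σ : K ≃ₐ[ℚ] K) :
    ∃ S T : 𝓞 K, (∃ n : ℕ, S ∣ ((p : ℕ) : 𝓞 K) ^ n) ∧ (∃ n : ℕ, T ∣ ((p : ℕ) : 𝓞 K) ^ n) ∧
      σ ((thaineU p K : 𝓞 K) : K) * ((S : 𝓞 K) : K) ^ p =
        ((thaineU p K : 𝓞 K) : K) ^ sqExp p K σ * ((T : 𝓞 K) : K) ^ p := by
  have ha : chi p K σ ≠ 0 := chi_ne_zero p K σ
  refine ⟨∏ y ∈ (Finset.univ : Finset (ZMod p)).filter (· ≠ 0),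
      gz p K y ^ ((sqExp p K σ * ez p y) / p),
    ∏ y ∈ (Finset.univ : Finset (ZMod p)).filter (· ≠ 0),
      gz p K y ^ (ez p ((chi p K σ)⁻¹ * y) / p),
    prod_gz_pow_dvd p K _, prod_gz_pow_dvd p K _, ?_⟩
  show σ (algebraMap (𝓞 K) K (thaineU p K)) *
      (algebraMap (𝓞 K) K (∏ y ∈ (Finset.univ : Finset (ZMod p)).filter (· ≠ 0),
        gz p K y ^ ((sqExp p K σ * ez p y) / p))) ^ p =
    (algebraMap (𝓞 K) K (thaineU p K)) ^ sqExp p K σ *
      (algebraMap (𝓞 K) K (∏ y ∈ (Finset.univ : Finset (ZMod p)).filter (· ≠ 0),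
        gz p K y ^ (ez p ((chi p K σ)⁻¹ * y) / p))) ^ p
  rw [sigma_thaineU, thaineU_eq_prod, map_prod, map_prod, map_prod, ← Finset.prod_pow,
    ← Finset.prod_pow, ← Finset.prod_pow, ← Finset.prod_mul_distrib, ← Finset.prod_mul_distrib]
  refine Finset.prod_congr rfl (fun y _ => ?_)
  rw [map_pow, map_pow, map_pow, ← pow_mul, ← pow_mul, ← pow_mul, ← pow_add, ← pow_add]
  congr 1
  have h := modEq_add_div (ez_modEq p (chi p K σ) ha y)
  unfold sqExp
  rw [mul_comm _ p, mul_comm _ p, mul_comm (ez p y)]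
  exact h

end Fermat.Agent.S14.Thaine.CycloU
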